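/-
S18 project, package [CUSP]-EMB (helper35), part (E1): the PUISEUX MONOMIAL LEMMA.

`κ` an algebraically closed field, `M ≥ 1` with `(M : κ) ≠ 0`, `F_M = modularFunctionFieldFullC κ M`
(generated by the `t_d = t(q^d)`, `d ∣ M`).  For ANY domain `Ω`, ring homomorphisms
`jj : κ((u)) → Ω` and `τ : F_M → Ω` with `τ t = jj (t(u^M))`: every `τ t_d` (`d ∣ M`) is `jj` of a
MONOMIAL SUBSTITUTION `t(c u^e)` with `c` a root of unity:
`∃ c e a d', e ≠ 0 ∧ a * d' = d ∧ e * d' = M * a ∧ c ^ d' = 1 ∧ τ t_d = jj (monT κ c e)`.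

Proof: induction on `d` along a prime factor `p`, `d = p * d₁`: `Φ_p(t_{p d₁}, t_{d₁}) = 0` and the
ROOTS identity of S28 at the monomial `x = c₀ u^(e/p)`, `c₀^p = c`.
-/
import Mathlib
import Fermat.Agent.S28.KeyLowerMain
import Fermat.Agent.S28.ModEq

set_option autoImplicit false
set_option linter.style.haveILetI false

noncomputable section

namespace Fermat.Agent.S18.CuspEmb35

open HahnSeries ModularCurve IntermediateField Polynomial
open Fermat.Agent.S28 Fermat.Agent.S28.Subst Fermat.Agent.S28.KeyLowerBasic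
open Fermat.Agent.S28.KeyLower

/-- the hypothesis bundle of S28/KEYL over an algebraically closed field -/
def inp (κ : Type) [Field κ] [IsAlgClosed κ] : Input κ := inputOf κ modEqStatement

section General

variable {κ : Type} [Field κ] [IsAlgClosed κ]

/-- `t_d` as an element of `F_M`. -/
def tdF (M : ℕ) [NeZero M] (d : ℕ) (hd : d ∣ M) : ↥(modularFunctionFieldFullC κ M) :=
  ⟨tq κ d, tq_mem_fullC κ hd⟩

omit [IsAlgClosed κ] in
@[simp] theorem coe_tdF (M : ℕ) [NeZero M] (d : ℕ) (hd : d ∣ M) :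
    ((tdF (κ := κ) M d hd : ↥(modularFunctionFieldFullC κ M)) : LaurentSeries κ) = tq κ d := rfl

/-- the modular relation `Φ_r(t_{rd}, t_d) = 0` inside `F_M`. -/
theorem ev_tdF (M : ℕ) [NeZero M] {r d : ℕ} (hr : r.Prime) (hrκ : (r : κ) ≠ 0)
    (hrd : r * d ∣ M) :
    ev ((inp κ).Φ r) (tdF (κ := κ) M (r * d) hrd) (tdF M d ((Dvd.intro_left r rfl).trans hrd)) = 0 := by
  have hd : 0 < d := Nat.pos_of_ne_zero (by
    rintro rfl
    rw [mul_zero, zero_dvd_iff] at hrd
    exact NeZero.ne M hrd)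
  have h := (inp κ).rel hr hrκ hd
  apply Subtype.val_injective
  have := map_ev (algebraMap ↥(modularFunctionFieldFullC κ M) (LaurentSeries κ))
    ((inp κ).Φ r) (tdF (κ := κ) M (r * d) hrd) (tdF M d ((Dvd.intro_left r rfl).trans hrd))
  rw [IntermediateField.algebraMap_apply, IntermediateField.algebraMap_apply,
    IntermediateField.algebraMap_apply, coe_tdF, coe_tdF, h] at this
  rw [this]
  rfl

/-- `Φ_r` of the S28 input is the chosen `ModEqData` polynomial. -/
theorem inp_Φ (r : ℕ) [NeZero r] (hr : r.Prime) :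
    (inp κ).Φ r = (dataT modEqStatement r hr).Phi :=
  phiT_eq modEqStatement r hr

/-- ROOTS at the monomial `c₀ u^e'`, in the `polyAt`/`monT` notation. -/
theorem polyAt_monT {r : ℕ} (hr : r.Prime) (ζ : κˣ)
    (hcyc : (Polynomial.cyclotomic r κ).IsRoot (ζ : κ)) (c₀ : κˣ) (e' : ℕ) (he' : e' ≠ 0) :
    polyAt ((inp κ).Φ r) (monT κ (c₀ ^ r) (e' * r)) =
      (X - Polynomial.C (monT κ (c₀ ^ (r * r)) (e' * (r * r)))) *
        ∏ b ∈ Finset.range r, (X - Polynomial.C (monT κ (c₀ * ζ ^ b) e')) := by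
  haveI : NeZero r := ⟨hr.ne_zero⟩
  haveI : NeZero e' := ⟨he'⟩
  haveI : NeZero (e' * r) := ⟨Nat.mul_ne_zero he' hr.ne_zero⟩
  haveI : NeZero (e' * (r * r)) :=
    ⟨Nat.mul_ne_zero he' (Nat.mul_ne_zero hr.ne_zero hr.ne_zero)⟩
  have h := modEqData_roots_monomial (dataT modEqStatement r hr) κ ζ hcyc c₀ e'
  rw [inp_Φ r hr, polyAt_eq_map_evalY, monT_eq, monT_eq, h]
  congr 1
  apply Finset.prod_congr rfl
  intro b _
  rw [monT_eq]

/-- **Puiseux monomial lemma.** -/
theorem exists_monomial (M : ℕ) [NeZero M] (hMκ : (M : κ) ≠ 0) {Ω : Type*} [CommRing Ω]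
    [IsDomain Ω] (jj : LaurentSeries κ →+* Ω) (τ : ↥(modularFunctionFieldFullC κ M) →+* Ω)
    (hτ : τ (tdF M 1 (one_dvd M)) = jj (tq κ M)) :
    ∀ (d : ℕ) (hd : d ∣ M), ∃ (c : κˣ) (e a d' : ℕ), e ≠ 0 ∧ a * d' = d ∧ e * d' = M * a ∧
      c ^ d' = 1 ∧ τ (tdF M d hd) = jj (monT κ c e) := by
  intro d
  induction d using Nat.strong_induction_on with
  | _ d ih =>
    intro hd
    rcases Nat.lt_or_ge 1 d with h1 | h1
    · obtain ⟨p, hp, ⟨d₁, rfl⟩⟩ := Nat.exists_prime_and_dvd (by omega : d ≠ 1)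
      haveI : NeZero p := ⟨hp.ne_zero⟩
      have hd₁M : d₁ ∣ M := (Dvd.intro_left p rfl).trans hd
      have hd₁0 : d₁ ≠ 0 := by
        rintro rfl
        rw [mul_zero, zero_dvd_iff] at hd
        exact NeZero.ne M hd
      have hpκ : (p : κ) ≠ 0 := by
        intro h0
        obtain ⟨m, hm⟩ := hd
        apply hMκ
        rw [hm]
        push_cast
        rw [h0, zero_mul, zero_mul]
      have hlt : d₁ < p * d₁ := by
        have := hp.two_le
        have : 0 < d₁ := Nat.pos_of_ne_zero hd₁0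
        nlinarith
      obtain ⟨c, e, a, d', he, had, hed, hc, hτd⟩ := ih d₁ hlt hd₁M
      have hd'0 : d' ≠ 0 := by
        rintro rfl
        rw [mul_zero] at had
        exact hd₁0 had.symm
      -- `p ∣ e`
      obtain ⟨m, hm⟩ := hd
      obtain ⟨e', rfl⟩ : p ∣ e := by
        refine ⟨a * m * a, ?_⟩
        apply Nat.eq_of_mul_eq_mul_right (Nat.pos_of_ne_zero hd'0)
        rw [hed, hm, ← had]
        ring
      have he' : e' ≠ 0 := by
        rintro rfl
        exact he (mul_zero p)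
      -- roots of unity and `p`-th roots
      obtain ⟨ζ, hζ, hcyc⟩ := exists_zeta κ p hp.pos hpκ
      obtain ⟨z, hz⟩ := IsAlgClosed.exists_pow_nat_eq (c : κ) hp.pos
      have hz0 : z ≠ 0 := by
        rintro rfl
        rw [zero_pow hp.ne_zero] at hz
        exact c.ne_zero hz.symm
      set c₀ : κˣ := Units.mk0 z hz0 with hc₀
      have hc₀p : c₀ ^ p = c := by
        apply Units.ext
        rw [Units.val_pow_eq_pow_val, hc₀, Units.val_mk0, hz]
      -- the relation, transported by `τ`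
      have hrel := congrArg τ (ev_tdF (κ := κ) M hp hpκ (⟨m, hm⟩ : p * d₁ ∣ M))
      rw [map_zero, map_ev, hτd, ← hc₀p, mul_comm p e', ev, ← polyAt_map jj,
        polyAt_monT hp ζ hcyc c₀ e' he', Polynomial.map_mul, Polynomial.map_sub,
        Polynomial.map_X, Polynomial.map_C, Polynomial.map_prod, Polynomial.eval_mul,
        Polynomial.eval_sub, Polynomial.eval_X, Polynomial.eval_C, Polynomial.eval_prod,
        mul_eq_zero, sub_eq_zero, Finset.prod_eq_zero_iff] at hrel
      rcases hrel with hrel | ⟨b, -, hrel⟩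
      · refine ⟨c₀ ^ (p * p), e' * (p * p), a * p, d', ?_, ?_, ?_, ?_, hrel⟩
        · exact Nat.mul_ne_zero he' (Nat.mul_ne_zero hp.ne_zero hp.ne_zero)
        · rw [← had]; ring
        · have : e' * (p * p) * d' = p * (p * e' * d') := by ring
          rw [this, hed]; ring
        · rw [pow_mul, hc₀p, ← pow_mul, mul_comm, pow_mul, hc, one_pow]
      · rw [Polynomial.map_sub, Polynomial.map_X, Polynomial.map_C, Polynomial.eval_sub,
          Polynomial.eval_X, Polynomial.eval_C, sub_eq_zero] at hrel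
        refine ⟨c₀ * ζ ^ b, e', a, p * d', he', ?_, ?_, ?_, hrel⟩
        · rw [← had]; ring
        · rw [← hed]; ring
        · have hζp : ζ ^ p = 1 := by
            have := hζ.pow_eq_one
            exact this
          rw [mul_pow, pow_mul, hc₀p, hc, one_mul, ← pow_mul, mul_comm b, mul_assoc, pow_mul, hζp,
            one_pow]
    · have hd1 : d = 1 := by
        have : d ≠ 0 := by
          rintro rfl
          rw [zero_dvd_iff] at hd
          exact NeZero.ne M hd
        omega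
      subst hd1
      refine ⟨1, M, 1, 1, NeZero.ne M, rfl, by ring, one_pow 1, ?_⟩
      rw [hτ, ← (inp κ).mon_one M]
      rfl

end General

end Fermat.Agent.S18.CuspEmb35
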